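import Mathlib.NumberTheory.ModularForms.QExpansion
import Mathlib.NumberTheory.ModularForms.CongruenceSubgroups

/-!
# Translates of `τ ↦ f (d τ)` under `SL(2, ℤ)` (Hermite normal form)

For `d ≥ 1` and `g ∈ SL(2, ℤ)` the integral matrix `diag(d, 1) · g` of determinant `d` can be
written as `g' · [[A, B], [0, D]]` with `g' ∈ SL(2, ℤ)`, `A D = d`, `0 ≤ B < D` and
`A = gcd(d, g₁₀)`.  Consequently, for an `SL(2, ℤ)`-invariant function `f` on the upper half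
plane, `f (d · (g • τ)) = f ((A τ + B) / D)`.  If `f` has a simple pole at `i∞`, comparing the
growth along the imaginary axis shows that the translates of `τ ↦ f (N τ)` by `g₁`, `g₂` agree
iff `g₁ g₂⁻¹ ∈ Γ₀(N)`.

Everything is stated for an arbitrary invariant function `f : ℍ → ℂ` (no definition of the
`j`-function is needed).
-/

set_option autoImplicit false

open Complex Filter Topology
open UpperHalfPlane hiding I
open scoped MatrixGroups Real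

namespace Fermat.Agent.S24.H68

/-! ### (T1) Hermite normal form of an integral `2 × 2` matrix of positive determinant -/

/-- Unnormalised Hermite decomposition `[[M00, M01], [M10, M11]] = g' * [[e, b'], [0, d']]`. -/
theorem exists_hermite_aux (M00 M01 M10 M11 : ℤ) (hdet : 0 < M00 * M11 - M01 * M10) :
    ∃ (g' : SL(2, ℤ)) (e b' d' : ℤ), 0 < e ∧ 0 < d' ∧ e = Int.gcd M00 M10 ∧
      e * d' = M00 * M11 - M01 * M10 ∧
      g' 0 0 * e = M00 ∧ g' 1 0 * e = M10 ∧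
      g' 0 0 * b' + g' 0 1 * d' = M01 ∧ g' 1 0 * b' + g' 1 1 * d' = M11 := by
  have hne : ¬ (M00 = 0 ∧ M10 = 0) := by
    rintro ⟨h0, h1⟩
    rw [h0, h1] at hdet
    simp at hdet
  have hpos : 0 < Int.gcd M00 M10 := by
    rw [Nat.pos_iff_ne_zero, Ne, Int.gcd_eq_zero_iff]
    exact hne
  obtain ⟨u', v', hgcd, hu, hv⟩ := Int.exists_gcd_one hpos
  set e : ℤ := (Int.gcd M00 M10 : ℤ) with he
  have he0 : 0 < e := Int.natCast_pos.mpr hpos
  obtain ⟨g', hg0, hg1⟩ := (Int.isCoprime_iff_gcd_eq_one.mpr hgcd).exists_SL2_col 0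
  have hdetg' : g' 0 0 * g' 1 1 - g' 0 1 * g' 1 0 = 1 := by
    have h := g'.det_coe
    rwa [Matrix.det_fin_two] at h
  rw [hg0, hg1] at hdetg'
  have hprod : e * (-v' * M01 + u' * M11) = M00 * M11 - M01 * M10 := by
    rw [hu, hv]; ring
  refine ⟨g', e, g' 1 1 * M01 - g' 0 1 * M11, -v' * M01 + u' * M11, he0, ?_, rfl, hprod,
    ?_, ?_, ?_, ?_⟩
  · have : 0 < e * (-v' * M01 + u' * M11) := by rw [hprod]; exact hdet
    exact (mul_pos_iff_of_pos_left he0).mp this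
  · rw [hg0, hu]
  · rw [hg1, hv]
  · rw [hg0]; linear_combination M01 * hdetg'
  · rw [hg1]; linear_combination M11 * hdetg'

/-- (T1) Hermite normal form: `[[M00, M01], [M10, M11]] = g' * [[A, B], [0, D]]` with
`g' ∈ SL(2, ℤ)`, `A, D > 0`, `0 ≤ B < D`, `A = gcd(M00, M10)`. -/
theorem exists_hermite (M00 M01 M10 M11 : ℤ) (hdet : 0 < M00 * M11 - M01 * M10) :
    ∃ (g' : SL(2, ℤ)) (A B D : ℤ), 0 < A ∧ 0 < D ∧ 0 ≤ B ∧ B < D ∧ A = Int.gcd M00 M10 ∧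
      A * D = M00 * M11 - M01 * M10 ∧
      g' 0 0 * A = M00 ∧ g' 1 0 * A = M10 ∧
      g' 0 0 * B + g' 0 1 * D = M01 ∧ g' 1 0 * B + g' 1 1 * D = M11 := by
  obtain ⟨g', e, b', d', he, hd', hgcd, hprod, h00, h10, h01, h11⟩ :=
    exists_hermite_aux M00 M01 M10 M11 hdet
  -- `b' = d' * q + B`
  set q : ℤ := b' / d' with hq
  set B : ℤ := b' % d' with hB
  have hdiv : d' * q + B = b' := Int.mul_ediv_add_emod b' d'
  have hB0 : 0 ≤ B := Int.emod_nonneg _ hd'.ne'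
  have hBlt : B < d' := Int.emod_lt_of_pos _ hd'
  have e00 : (g' * ModularGroup.T ^ q) 0 0 = g' 0 0 := by
    simp [Matrix.SpecialLinearGroup.coe_mul, ModularGroup.coe_T_zpow, Matrix.mul_apply,
      Fin.sum_univ_two]
  have e01 : (g' * ModularGroup.T ^ q) 0 1 = g' 0 0 * q + g' 0 1 := by
    simp [Matrix.SpecialLinearGroup.coe_mul, ModularGroup.coe_T_zpow, Matrix.mul_apply,
      Fin.sum_univ_two]
  have e10 : (g' * ModularGroup.T ^ q) 1 0 = g' 1 0 := by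
    simp [Matrix.SpecialLinearGroup.coe_mul, ModularGroup.coe_T_zpow, Matrix.mul_apply,
      Fin.sum_univ_two]
  have e11 : (g' * ModularGroup.T ^ q) 1 1 = g' 1 0 * q + g' 1 1 := by
    simp [Matrix.SpecialLinearGroup.coe_mul, ModularGroup.coe_T_zpow, Matrix.mul_apply,
      Fin.sum_univ_two]
  refine ⟨g' * ModularGroup.T ^ q, e, B, d', he, hd', hB0, hBlt, hgcd, hprod, ?_, ?_, ?_, ?_⟩
  · rw [e00, h00]
  · rw [e10, h10]
  · rw [e00, e01, ← h01, ← hdiv]; ring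
  · rw [e10, e11, ← h11, ← hdiv]; ring

/-! ### (T2) the dilation `τ ↦ d τ` composed with `g ∈ SL(2, ℤ)` -/

theorem coe_smul_eq (g : SL(2, ℤ)) (τ : ℍ) :
    ((g • τ : ℍ) : ℂ) = (((g 0 0 : ℤ) : ℂ) * τ + ((g 0 1 : ℤ) : ℂ)) /
      (((g 1 0 : ℤ) : ℂ) * τ + ((g 1 1 : ℤ) : ℂ)) := by
  rw [UpperHalfPlane.coe_specialLinearGroup_apply]
  simp

theorem denom_ne (g : SL(2, ℤ)) (τ : ℍ) :
    ((g 1 0 : ℤ) : ℂ) * τ + ((g 1 1 : ℤ) : ℂ) ≠ 0 := by
  have := UpperHalfPlane.denom_ne_zero (g : GL (Fin 2) ℝ) τ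
  rwa [ModularGroup.denom_apply] at this

theorem det_eq_one (g : SL(2, ℤ)) : g 0 0 * g 1 1 - g 0 1 * g 1 0 = 1 := by
  have h := g.det_coe
  rwa [Matrix.det_fin_two] at h

theorem gcd_dilate (d : ℕ) (g : SL(2, ℤ)) :
    Int.gcd ((d : ℤ) * g 0 0) (g 1 0) = Nat.gcd d (g 1 0).natAbs := by
  have hcop : IsCoprime (g 0 0) (g 1 0) := ⟨g 1 1, -g 0 1, by linear_combination det_eq_one g⟩
  have h1 : Nat.Coprime (g 0 0).natAbs (g 1 0).natAbs := Int.isCoprime_iff_gcd_eq_one.mp hcop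
  show Nat.gcd ((d : ℤ) * g 0 0).natAbs (g 1 0).natAbs = Nat.gcd d (g 1 0).natAbs
  rw [Int.natAbs_mul, Int.natAbs_natCast]
  exact Nat.Coprime.gcd_mul_right_cancel d h1

/-- (T2) For `d ≥ 1` and `g ∈ SL(2, ℤ)` there are `g' ∈ SL(2, ℤ)` and naturals `A, B, D` with
`A D = d`, `B < D`, `A = gcd(d, g₁₀)` such that `d · (g • τ) = g' • ((A τ + B) / D)`. -/
theorem exists_affine_of_dilate (d : ℕ) (hd : 0 < d) (g : SL(2, ℤ)) :
    ∃ (g' : SL(2, ℤ)) (A B D : ℕ), 0 < A ∧ 0 < D ∧ B < D ∧ A * D = d ∧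
      A = Nat.gcd d (g 1 0).natAbs ∧
      ∀ τ τ' : ℍ, (τ' : ℂ) = ((A : ℂ) * τ + B) / D → (d : ℂ) * ↑(g • τ) = ↑(g' • τ') := by
  have hdet : (d : ℤ) * g 0 0 * g 1 1 - (d : ℤ) * g 0 1 * g 1 0 = d := by
    linear_combination (d : ℤ) * det_eq_one g
  obtain ⟨g', A, B, D, hA, hD, hB0, hBD, hgcd, hprod, h00, h10, h01, h11⟩ :=
    exists_hermite ((d : ℤ) * g 0 0) ((d : ℤ) * g 0 1) (g 1 0) (g 1 1)
      (by rw [hdet]; exact_mod_cast hd)
  rw [hdet] at hprod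
  obtain ⟨Bn, rfl⟩ := Int.eq_ofNat_of_zero_le hB0
  obtain ⟨Dn, rfl⟩ := Int.eq_ofNat_of_zero_le hD.le
  rw [gcd_dilate] at hgcd
  subst hgcd
  refine ⟨g', Nat.gcd d (g 1 0).natAbs, Bn, Dn, by exact_mod_cast hA, by exact_mod_cast hD,
    by exact_mod_cast hBD, by exact_mod_cast hprod, rfl, fun τ τ' hτ' => ?_⟩
  set An : ℕ := Nat.gcd d (g 1 0).natAbs
  have hDC : (Dn : ℂ) ≠ 0 := by
    have : (Dn : ℤ) ≠ 0 := hD.ne'
    exact_mod_cast this
  have c00 : ((g' 0 0 : ℤ) : ℂ) * (An : ℂ) = (d : ℂ) * ((g 0 0 : ℤ) : ℂ) := by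
    exact_mod_cast congrArg (Int.cast : ℤ → ℂ) h00
  have c10 : ((g' 1 0 : ℤ) : ℂ) * (An : ℂ) = ((g 1 0 : ℤ) : ℂ) := by
    exact_mod_cast congrArg (Int.cast : ℤ → ℂ) h10
  have c01 : ((g' 0 0 : ℤ) : ℂ) * (Bn : ℂ) + ((g' 0 1 : ℤ) : ℂ) * (Dn : ℂ)
      = (d : ℂ) * ((g 0 1 : ℤ) : ℂ) := by
    exact_mod_cast congrArg (Int.cast : ℤ → ℂ) h01
  have c11 : ((g' 1 0 : ℤ) : ℂ) * (Bn : ℂ) + ((g' 1 1 : ℤ) : ℂ) * (Dn : ℂ)
      = ((g 1 1 : ℤ) : ℂ) := by
    exact_mod_cast congrArg (Int.cast : ℤ → ℂ) h11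
  have hden1 := denom_ne g τ
  rw [coe_smul_eq g τ, coe_smul_eq g' τ', hτ']
  have hnum : ((g' 0 0 : ℤ) : ℂ) * (((An : ℂ) * τ + Bn) / Dn) + ((g' 0 1 : ℤ) : ℂ)
      = ((d : ℂ) * (((g 0 0 : ℤ) : ℂ) * τ + ((g 0 1 : ℤ) : ℂ))) / Dn := by
    field_simp
    linear_combination (τ : ℂ) * c00 + c01
  have hdq : ((g' 1 0 : ℤ) : ℂ) * (((An : ℂ) * τ + Bn) / Dn) + ((g' 1 1 : ℤ) : ℂ)
      = (((g 1 0 : ℤ) : ℂ) * τ + ((g 1 1 : ℤ) : ℂ)) / Dn := by
    field_simp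
    linear_combination (τ : ℂ) * c10 + c11
  rw [hnum, hdq, div_div_div_cancel_right₀ hDC, mul_div_assoc]

/-! ### (T3) translates of invariant functions -/

theorem im_pos_dilate (d : ℕ) (hd : 0 < d) {z : ℂ} (hz : 0 < z.im) : 0 < ((d : ℂ) * z).im := by
  have : ((d : ℂ) * z).im = d * z.im := by simp
  rw [this]
  have : (0 : ℝ) < d := by exact_mod_cast hd
  positivity

theorem im_affine (A B D : ℕ) (z : ℂ) :
    (((A : ℂ) * z + B) / D).im = (A : ℝ) * z.im / D := by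
  have h1 : (((A : ℂ) * z + B) / D) = (((A : ℂ) * z + B)) * ((D : ℝ) : ℂ)⁻¹ := by
    rw [div_eq_mul_inv]; simp
  rw [h1, ← Complex.ofReal_inv, Complex.im_mul_ofReal]
  simp [div_eq_mul_inv]

theorem im_pos_affine (A B D : ℕ) (hA : 0 < A) (hD : 0 < D) {z : ℂ} (hz : 0 < z.im) :
    0 < (((A : ℂ) * z + B) / D).im := by
  rw [im_affine]
  have h1 : (0 : ℝ) < A := by exact_mod_cast hA
  have h2 : (0 : ℝ) < D := by exact_mod_cast hD
  positivity

/-- (T3) For an `SL(2, ℤ)`-invariant function `f`, the translate of `τ ↦ f (d τ)` by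
`g ∈ SL(2, ℤ)` is `τ ↦ f ((A τ + B) / D)` with `A D = d`, `B < D`, `A = gcd(d, g₁₀)`. -/
theorem exists_affine_of_invariant (d : ℕ) (hd : 0 < d) (g : SL(2, ℤ)) :
    ∃ (A B D : ℕ), 0 < A ∧ 0 < D ∧ B < D ∧ A * D = d ∧ A = Nat.gcd d (g 1 0).natAbs ∧
      ∀ (f : ℍ → ℂ), (∀ (γ : SL(2, ℤ)) (τ : ℍ), f (γ • τ) = f τ) → ∀ τ : ℍ,
        f (ofComplex ((d : ℂ) * ↑(g • τ))) = f (ofComplex (((A : ℂ) * τ + B) / D)) := by
  obtain ⟨g', A, B, D, hA, hD, hBD, hAD, hgcd, hmain⟩ := exists_affine_of_dilate d hd g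
  refine ⟨A, B, D, hA, hD, hBD, hAD, hgcd, fun f hf τ => ?_⟩
  have him := im_pos_affine A B D hA hD τ.im_pos
  have h := hmain τ ⟨((A : ℂ) * τ + B) / D, him⟩ rfl
  rw [h, ofComplex_apply, hf, ofComplex_apply_of_im_pos him]

/-! ### (T4) growth at `i∞` and distinctness of the translates -/

/-- A path `p : ℝ → ℂ` whose imaginary part tends to `∞` gives a path in `ℍ` tending to `i∞`. -/
theorem tendsto_ofComplex_atImInfty {p : ℝ → ℂ} (hp : Tendsto (fun t => (p t).im) atTop atTop) :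
    Tendsto (fun t => ofComplex (p t)) atTop atImInfty :=
  tendsto_comap_im_ofComplex.comp (tendsto_comap_iff.mpr hp)

/-- (T4) If the `SL(2, ℤ)`-invariant function `f` has a simple pole at `i∞` (i.e. `f · q` tends
to a nonzero limit) and `f (N · (h • τ)) = f (N τ)` for all `τ`, then `h ∈ Γ₀(N)`. -/
theorem mem_Gamma0_of_dilate_eq {f : ℍ → ℂ} (hf : ∀ (γ : SL(2, ℤ)) (τ : ℍ), f (γ • τ) = f τ)
    {c : ℂ} (hc : c ≠ 0)
    (hpole : Tendsto (fun τ : ℍ => f τ * Function.Periodic.qParam 1 τ) atImInfty (𝓝 c))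
    (N : ℕ) (hN : 0 < N) (h : SL(2, ℤ))
    (heq : ∀ τ : ℍ, f (ofComplex ((N : ℂ) * ↑(h • τ))) = f (ofComplex ((N : ℂ) * τ))) :
    h ∈ CongruenceSubgroup.Gamma0 N := by
  obtain ⟨A, B, D, hA, hD, hBD, hAD, hgcd, hmain⟩ := exists_affine_of_invariant N hN h
  -- it suffices to show `D = 1`
  suffices hD1 : D = 1 by
    rw [hD1, mul_one] at hAD
    rw [hAD] at hgcd
    have hdvd : N ∣ (h 1 0).natAbs := Nat.gcd_eq_left_iff_dvd.mp hgcd.symm
    rw [CongruenceSubgroup.Gamma0_mem]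
    have : ((N : ℤ)) ∣ h 1 0 := Int.natCast_dvd.mpr hdvd
    exact (ZMod.intCast_zmod_eq_zero_iff_dvd _ _).mpr this
  by_contra hD1
  have hD2 : 2 ≤ D := by omega
  have hNR : (0 : ℝ) < N := by exact_mod_cast hN
  have hAR : (0 : ℝ) < A := by exact_mod_cast hA
  have hDR : (0 : ℝ) < D := by exact_mod_cast hD
  -- the exponent gap `N - A / D > 0`
  have hgap : (0 : ℝ) < N - A / D := by
    have h1 : (A : ℝ) * D = N := by exact_mod_cast hAD
    have h2 : (2 : ℝ) ≤ D := by exact_mod_cast hD2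
    have h3 : (A : ℝ) / D ≤ A / 2 := by gcongr
    have h4 : (N : ℝ) ≥ A * 2 := by rw [← h1]; gcongr
    linarith
  -- two paths to `i∞`
  have hp1 : Tendsto (fun t : ℝ => ofComplex ((N : ℂ) * ((t : ℂ) * I))) atTop atImInfty := by
    apply tendsto_ofComplex_atImInfty
    have : (fun t : ℝ => ((N : ℂ) * ((t : ℂ) * I)).im) = fun t : ℝ => (N : ℝ) * t := by
      funext t; simp
    rw [this]
    exact tendsto_id.const_mul_atTop hNR
  have hp2 : Tendsto (fun t : ℝ => ofComplex (((A : ℂ) * ((t : ℂ) * I) + B) / D)) atTop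
      atImInfty := by
    apply tendsto_ofComplex_atImInfty
    have : (fun t : ℝ => (((A : ℂ) * ((t : ℂ) * I) + B) / D).im)
        = fun t : ℝ => (A : ℝ) / D * t := by
      funext t; rw [im_affine]; simp; ring
    rw [this]
    exact tendsto_id.const_mul_atTop (div_pos hAR hDR)
  have hl1 := hpole.comp hp1
  have hl2 := hpole.comp hp2
  -- the two functions agree for `t > 0`
  set ζ : ℂ := Complex.exp (2 * π * I * ((B : ℂ) / D)) with hζ
  have hζ0 : ζ ≠ 0 := Complex.exp_ne_zero _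
  have hkey : ∀ᶠ t : ℝ in atTop,
      f (ofComplex ((N : ℂ) * ((t : ℂ) * I))) * Function.Periodic.qParam 1
          (ofComplex ((N : ℂ) * ((t : ℂ) * I)) : ℂ)
        = (f (ofComplex (((A : ℂ) * ((t : ℂ) * I) + B) / D)) * Function.Periodic.qParam 1
            (ofComplex (((A : ℂ) * ((t : ℂ) * I) + B) / D) : ℂ))
          * (ζ⁻¹ * (Real.exp (-(2 * π * (N - A / D)) * t) : ℂ)) := by
    filter_upwards [eventually_gt_atTop (0 : ℝ)] with t ht
    have htI : 0 < ((t : ℂ) * I).im := by simpa using ht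
    have e1 := hmain f hf ⟨(t : ℂ) * I, htI⟩
    have e2 := heq ⟨(t : ℂ) * I, htI⟩
    have hfeq : f (ofComplex ((N : ℂ) * ((t : ℂ) * I)))
        = f (ofComplex (((A : ℂ) * ((t : ℂ) * I) + B) / D)) := by rw [← e2, e1]
    have him1 := im_pos_dilate N hN htI
    have him2 := im_pos_affine A B D hA hD htI
    rw [hfeq, ofComplex_apply_of_im_pos him1, ofComplex_apply_of_im_pos him2]
    rw [mul_assoc]
    congr 1
    simp only [Function.Periodic.qParam, hζ]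
    rw [Complex.ofReal_exp, ← Complex.exp_neg, ← Complex.exp_add, ← Complex.exp_add]
    congr 1
    have hDC : (D : ℂ) ≠ 0 := by exact_mod_cast hD.ne'
    push_cast
    field_simp
    ring_nf
    simp only [Complex.I_sq]
    ring
  -- the correction factor tends to `0`
  have hzero : Tendsto (fun t : ℝ => (ζ⁻¹ * (Real.exp (-(2 * π * (N - A / D)) * t) : ℂ)))
      atTop (𝓝 0) := by
    have h1 : Tendsto (fun t : ℝ => Real.exp (-(2 * π * (N - A / D)) * t)) atTop (𝓝 0) := by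
      have hpos : 0 < 2 * π * ((N : ℝ) - A / D) := by positivity
      have : Tendsto (fun t : ℝ => -(2 * π * ((N : ℝ) - A / D)) * t) atTop atBot := by
        simpa using tendsto_id.const_mul_atTop_of_neg (neg_lt_zero.mpr hpos)
      exact Real.tendsto_exp_atBot.comp this
    have h2 : Tendsto (fun t : ℝ => ((Real.exp (-(2 * π * (N - A / D)) * t) : ℝ) : ℂ)) atTop
        (𝓝 ((0 : ℝ) : ℂ)) := (Complex.continuous_ofReal.tendsto 0).comp h1
    simpa using h2.const_mul ζ⁻¹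
  have hl3 := hl2.mul hzero
  rw [mul_zero] at hl3
  have hl4 : Tendsto ((fun τ : ℍ => f τ * Function.Periodic.qParam 1 τ) ∘
      fun t : ℝ => ofComplex ((N : ℂ) * ((t : ℂ) * I))) atTop (𝓝 0) := by
    refine hl3.congr' ?_
    filter_upwards [hkey] with t ht
    simp only [Function.comp_apply]
    rw [ht]
  exact hc (tendsto_nhds_unique hl1 hl4)

/-- For `d ∣ N` the function `τ ↦ f (d τ)` is `Γ₀(N)`-invariant (for `SL(2, ℤ)`-invariant `f`). -/
theorem dilate_invariant_of_mem_Gamma0 {f : ℍ → ℂ}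
    (hf : ∀ (γ : SL(2, ℤ)) (τ : ℍ), f (γ • τ) = f τ) {d N : ℕ} (hd : 0 < d) (hdN : d ∣ N)
    {h : SL(2, ℤ)} (hh : h ∈ CongruenceSubgroup.Gamma0 N) (τ : ℍ) :
    f (ofComplex ((d : ℂ) * ↑(h • τ))) = f (ofComplex ((d : ℂ) * τ)) := by
  obtain ⟨A, B, D, hA, hD, hBD, hAD, hgcd, hmain⟩ := exists_affine_of_invariant d hd h
  have hN : (N : ℤ) ∣ h 1 0 := by
    rw [CongruenceSubgroup.Gamma0_mem] at hh
    exact (ZMod.intCast_zmod_eq_zero_iff_dvd _ _).mp hh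
  have hdvd : d ∣ (h 1 0).natAbs := Int.natCast_dvd.mp ((Int.natCast_dvd_natCast.mpr hdN).trans hN)
  have hAd : A = d := by rw [hgcd]; exact Nat.gcd_eq_left hdvd
  have hD1 : D = 1 := by
    rw [hAd] at hAD
    exact Nat.eq_of_mul_eq_mul_left hd (by rw [hAD, mul_one])
  have hB0 : B = 0 := by omega
  rw [hmain f hf τ, hAd, hD1, hB0]
  simp

/-- (T4, pairwise form) The translates of `τ ↦ f (N τ)` by `g₁, g₂ ∈ SL(2, ℤ)` coincide iff
`g₁ g₂⁻¹ ∈ Γ₀(N)`: the `μ = [SL(2, ℤ) : Γ₀(N)]` translates are pairwise distinct. -/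
theorem dilate_translate_eq_iff {f : ℍ → ℂ} (hf : ∀ (γ : SL(2, ℤ)) (τ : ℍ), f (γ • τ) = f τ)
    {c : ℂ} (hc : c ≠ 0)
    (hpole : Tendsto (fun τ : ℍ => f τ * Function.Periodic.qParam 1 τ) atImInfty (𝓝 c))
    (N : ℕ) (hN : 0 < N) (g₁ g₂ : SL(2, ℤ)) :
    (∀ τ : ℍ, f (ofComplex ((N : ℂ) * ↑(g₁ • τ))) = f (ofComplex ((N : ℂ) * ↑(g₂ • τ)))) ↔
      g₁ * g₂⁻¹ ∈ CongruenceSubgroup.Gamma0 N := by
  constructor
  · intro h
    refine mem_Gamma0_of_dilate_eq hf hc hpole N hN _ fun τ => ?_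
    have := h (g₂⁻¹ • τ)
    rwa [← mul_smul, ← mul_smul, mul_inv_cancel, one_smul] at this
  · intro h τ
    have := dilate_invariant_of_mem_Gamma0 hf hN dvd_rfl h (g₂ • τ)
    rwa [← mul_smul, inv_mul_cancel_right] at this

end Fermat.Agent.S24.H68
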