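import Fermat.Agent.S24.ModDefs
import Fermat.Agent.S24.H68.Translates
import Fermat.Agent.S24.H64.JBasic

/-!
# S24, package AN-TRANSL: translates of `J_d = J(d ·)` in the shapes of `ModDefs.lean`

* `Jd d` is `Γ₀(N)`-invariant for `d ∣ N`; hence so is `Theta N P`, and `transl N x P` does not
  depend on the representative of the coset `x` (`transl_mk`).
* `Jd d (g • τ) = Jfun ((A τ + B) / D)` with `A D = d`, `B < D`, `A = gcd(d, g₁₀)`.
* `Jfun · q → 1` at `i∞`; the translates of `J_N` are pairwise distinct (`transl_X_topDiv_injective`).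
-/

set_option autoImplicit false

open Complex Filter Topology ModularForm EisensteinSeries CongruenceSubgroup
open UpperHalfPlane hiding I
open scoped MatrixGroups Real

namespace Fermat.Agent.S24.H68

open Fermat.Agent.S24

theorem Jfun_eq_J : Jfun = H64.J := rfl

/-- `Jfun` is `SL(2, ℤ)`-invariant. -/
theorem Jfun_smul (γ : SL(2, ℤ)) (τ : ℍ) : Jfun (γ • τ) = Jfun τ := H64.J_smul γ τ

/-- `Jfun` has a simple pole with residue `1` at `i∞`. -/
theorem tendsto_Jfun_mul_qParam :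
    Tendsto (fun τ : ℍ => Jfun τ * Function.Periodic.qParam 1 τ) atImInfty (𝓝 1) := by
  have h4 : Tendsto (fun τ : ℍ => E₄ τ ^ 3) atImInfty (𝓝 (1 ^ 3)) :=
    Fermat.Agent.S20.H61.E₄_tendsto_one.pow 3
  have hprod := ModularForm.tendsto_atImInfty_tprod_one_sub_eta_q_pow
  have hdiv := h4.div hprod (by norm_num)
  rw [one_pow, div_one] at hdiv
  refine hdiv.congr fun τ => ?_
  have hq : Function.Periodic.qParam 1 (τ : ℂ) ≠ 0 := Function.Periodic.qParam_ne_zero _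
  have hΔ := ModularForm.discriminant_eq_q_prod τ
  have hΔ0 : ModularForm.discriminant τ ≠ 0 := ModularForm.discriminant_ne_zero τ
  have hp0 : (∏' n : ℕ, (1 - ModularForm.eta_q n τ) ^ 24) ≠ 0 := by
    intro h0
    rw [h0, mul_zero] at hΔ
    exact hΔ0 hΔ
  show E₄ τ ^ 3 / (∏' n : ℕ, (1 - ModularForm.eta_q n τ) ^ 24)
    = Jfun τ * Function.Periodic.qParam 1 (τ : ℂ)
  simp only [Jfun]
  rw [hΔ]
  field_simp

theorem Jd_eq (d : ℕ) [NeZero d] (τ : ℍ) : Jd d τ = Jfun (ofComplex ((d : ℂ) * τ)) := by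
  have : ofComplex ((d : ℂ) * τ) = levelMul d τ := by
    rw [← coe_levelMul, ofComplex_apply]
  rw [this, Jd]

/-- `J_d` is `Γ₀(N)`-invariant for `d ∣ N`. -/
theorem Jd_smul_of_mem_Gamma0 {N d : ℕ} [NeZero d] (hdN : d ∣ N) {h : SL(2, ℤ)}
    (hh : h ∈ Gamma0 N) (τ : ℍ) : Jd d (h • τ) = Jd d τ := by
  rw [Jd_eq, Jd_eq]
  exact dilate_invariant_of_mem_Gamma0 Jfun_smul (Nat.pos_of_ne_zero (NeZero.ne d)) hdN hh τ

/-- (T3 for `Jd`) the translate of `J_d` by `g ∈ SL(2, ℤ)` is `τ ↦ J((A τ + B) / D)`. -/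
theorem exists_Jd_smul_eq_affine (d : ℕ) [NeZero d] (g : SL(2, ℤ)) :
    ∃ (A B D : ℕ), 0 < A ∧ 0 < D ∧ B < D ∧ A * D = d ∧ A = Nat.gcd d (g 1 0).natAbs ∧
      ∀ τ : ℍ, Jd d (g • τ) = Jfun (ofComplex (((A : ℂ) * τ + B) / D)) := by
  obtain ⟨A, B, D, hA, hD, hBD, hAD, hgcd, hmain⟩ :=
    exists_affine_of_invariant d (Nat.pos_of_ne_zero (NeZero.ne d)) g
  exact ⟨A, B, D, hA, hD, hBD, hAD, hgcd, fun τ => by rw [Jd_eq]; exact hmain Jfun Jfun_smul τ⟩

/-- (T4 for `Jd`) the translates of `J_N` by `g₁, g₂` coincide iff `g₁ g₂⁻¹ ∈ Γ₀(N)`. -/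
theorem Jd_smul_eq_iff (N : ℕ) [NeZero N] (g₁ g₂ : SL(2, ℤ)) :
    (∀ τ : ℍ, Jd N (g₁ • τ) = Jd N (g₂ • τ)) ↔ g₁ * g₂⁻¹ ∈ Gamma0 N := by
  have := dilate_translate_eq_iff Jfun_smul one_ne_zero tendsto_Jfun_mul_qParam N
    (Nat.pos_of_ne_zero (NeZero.ne N)) g₁ g₂
  simpa only [Jd_eq] using this

/-- Pointwise form of `Theta`. -/
theorem Theta_apply (N : ℕ) (P : MvPolynomial (N.divisors) Kbar) (τ : ℍ) :
    Theta N P τ = MvPolynomial.eval₂ iota (fun d : N.divisors => Jd (d : ℕ) τ) P := by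
  induction P using MvPolynomial.induction_on with
  | C a => simp [Theta]
  | add p q hp hq => rw [map_add, Pi.add_apply, hp, hq, MvPolynomial.eval₂_add]
  | mul_X p i hp =>
    rw [map_mul, Pi.mul_apply, hp, MvPolynomial.eval₂_mul, MvPolynomial.eval₂_X]
    simp [Theta]

/-- `Theta N P` is `Γ₀(N)`-invariant. -/
theorem Theta_smul_of_mem_Gamma0 (N : ℕ) (P : MvPolynomial (N.divisors) Kbar) {h : SL(2, ℤ)}
    (hh : h ∈ Gamma0 N) (τ : ℍ) : Theta N P (h • τ) = Theta N P τ := by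
  have hfun : (fun d : N.divisors => Jd (d : ℕ) (h • τ)) = fun d : N.divisors => Jd (d : ℕ) τ :=
    funext fun d => Jd_smul_of_mem_Gamma0 (Nat.dvd_of_mem_divisors d.2) hh τ
  rw [Theta_apply, Theta_apply, hfun]

/-- `transl` does not depend on the representative of the coset. -/
theorem transl_mk (N : ℕ) (g : SL(2, ℤ)) (P : MvPolynomial (N.divisors) Kbar) :
    transl N (QuotientGroup.mk g : XX N) P = fun τ => Theta N P (g⁻¹ • τ) := by
  funext τ
  simp only [transl]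
  set g' : SL(2, ℤ) := Quotient.out (QuotientGroup.mk g : XX N) with hg'
  have hmem : g⁻¹ * g' ∈ Gamma0 N := by
    have : (QuotientGroup.mk g' : XX N) = QuotientGroup.mk g := Quotient.out_eq _
    exact QuotientGroup.eq.mp this.symm
  have hinv : (g⁻¹ * g')⁻¹ ∈ Gamma0 N := (Gamma0 N).inv_mem hmem
  have := Theta_smul_of_mem_Gamma0 N P hinv (g⁻¹ • τ)
  rw [← this, ← mul_smul]
  group

/-- `transl` of the generator `J_N`. -/
theorem transl_X_topDiv (N : ℕ) [NeZero N] (x : XX N) (τ : ℍ) :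
    transl N x (MvPolynomial.X (topDiv N)) τ = Jd N ((Quotient.out x : SL(2, ℤ))⁻¹ • τ) := by
  simp only [transl, Theta_apply, MvPolynomial.eval₂_X]
  rfl

/-- The translates of `J_N` indexed by `SL(2, ℤ) ⧸ Γ₀(N)` are pairwise distinct. -/
theorem transl_X_topDiv_injective (N : ℕ) [NeZero N] :
    Function.Injective (fun x : XX N => transl N x (MvPolynomial.X (topDiv N))) := by
  intro x y hxy
  have h1 : ∀ τ : ℍ, Jd N ((Quotient.out x : SL(2, ℤ))⁻¹ • τ)
      = Jd N ((Quotient.out y : SL(2, ℤ))⁻¹ • τ) := by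
    intro τ
    rw [← transl_X_topDiv, ← transl_X_topDiv]
    exact congrFun hxy τ
  have h2 := (Jd_smul_eq_iff N _ _).mp h1
  rw [inv_inv] at h2
  have : (QuotientGroup.mk (Quotient.out x) : XX N) = QuotientGroup.mk (Quotient.out y) :=
    QuotientGroup.eq.mpr h2
  have hx : (QuotientGroup.mk (Quotient.out x) : XX N) = x := Quotient.out_eq x
  have hy : (QuotientGroup.mk (Quotient.out y) : XX N) = y := Quotient.out_eq y
  rw [hx, hy] at this
  exact this

end Fermat.Agent.S24.H68
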