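/-
S24 package AN-POLYJ (helper68): core of `Fermat/Agent/S24/Sym.lean`.

* `exists_map_iota_of_aeval` : rationality by triangularity — if `R(j(q^N))` has coefficients
  in `ℚ̄` then `R` has coefficients in `ℚ̄`.
* `esymm_rel` : elementary symmetric functions respect every relation closed under the
  semiring operations.
* `exists_sym_poly_core` : the elementary symmetric functions of the translates are
  `ℚ̄`-polynomials in `J`, with the expansion toolkit at `i∞` taken as hypotheses.
-/
import Fermat.Agent.S24.ModDefs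
import Fermat.Agent.S24.H49.TranslSmul
import Fermat.Agent.S24.H6.PolyInJ
import Fermat.Prelude.Thm_ModularCurve_coeffMap_qExpand
import Fermat.Prelude.Thm_ModularCurve_coeff_jqModC_pow_self
import Fermat.Prelude.Thm_ModularCurve_coeff_jqModC_pow_of_lt

set_option autoImplicit false

open UpperHalfPlane ModularCurve CongruenceSubgroup Filter
open scoped MatrixGroups Manifold

noncomputable section

namespace Fermat.Agent.S24.H68

open Fermat.Agent.S24

/-! ### Triangularity -/

theorem coeffMap_iota_jqModC : coeffMap iota (jqModC Kbar) = jqModC ℂ :=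
  map_jqModC iota

theorem coeffMap_iota_qExpand_jqModC (N : ℕ) [NeZero N] :
    coeffMap iota (qExpand Kbar N (jqModC Kbar)) = qExpand ℂ N (jqModC ℂ) := by
  rw [coeffMap_qExpand, coeffMap_iota_jqModC]

theorem algebraMap_eq_C (c : ℂ) : algebraMap ℂ (LaurentSeries ℂ) c = HahnSeries.C c := by
  rw [algebraMap_laurentSeries_eq_single]; rfl

theorem coeffMap_iota_C (a : Kbar) :
    coeffMap iota (HahnSeries.C a) = HahnSeries.C (iota a) := by
  rw [HahnSeries.C_apply, coeffMap_single, HahnSeries.C_apply]

/-- The coefficient of `q^{-Nn}` in `R(j(q^N))` is the `n`-th coefficient of `R` when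
`deg R ≤ n`. -/
theorem coeff_aeval_qExpand_jqModC (N : ℕ) [NeZero N] (R : Polynomial ℂ) (n : ℕ)
    (hR : R.natDegree ≤ n) :
    (Polynomial.aeval (qExpand ℂ N (jqModC ℂ)) R).coeff ((N : ℤ) * (-(n : ℤ))) = R.coeff n := by
  rw [Polynomial.aeval_def, Polynomial.eval₂_eq_sum_range' _ (Nat.lt_add_one_iff.mpr hR)]
  have hcoeff : ∀ i ∈ Finset.range (n + 1),
      (algebraMap ℂ (LaurentSeries ℂ) (R.coeff i)
          * qExpand ℂ N (jqModC ℂ) ^ i).coeff ((N : ℤ) * (-(n : ℤ)))
        = if i = n then R.coeff n else 0 := by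
    intro i hi
    rw [algebraMap_eq_C, HahnSeries.C_mul_eq_smul, HahnSeries.coeff_smul, ← map_pow,
      qExpand_coeff_mul]
    split_ifs with h
    · subst h
      rw [coeff_jqModC_pow_self, smul_eq_mul, mul_one]
    · have hlt : i < n := lt_of_le_of_ne (Nat.lt_succ_iff.mp (Finset.mem_range.mp hi)) h
      rw [coeff_jqModC_pow_of_lt ℂ (by exact_mod_cast neg_lt_neg (by exact_mod_cast hlt)),
        smul_zero]
  have hsum : HahnSeries.coeff.addMonoidHom ((N : ℤ) * (-(n : ℤ)))
      (∑ i ∈ Finset.range (n + 1),
        algebraMap ℂ (LaurentSeries ℂ) (R.coeff i) * qExpand ℂ N (jqModC ℂ) ^ i)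
      = ∑ i ∈ Finset.range (n + 1),
        (algebraMap ℂ (LaurentSeries ℂ) (R.coeff i)
          * qExpand ℂ N (jqModC ℂ) ^ i).coeff ((N : ℤ) * (-(n : ℤ))) :=
    map_sum (HahnSeries.coeff.addMonoidHom ((N : ℤ) * (-(n : ℤ))))
      (fun i => algebraMap ℂ (LaurentSeries ℂ) (R.coeff i) * qExpand ℂ N (jqModC ℂ) ^ i) _
  have hfin : (∑ i ∈ Finset.range (n + 1), if i = n then R.coeff n else 0) = R.coeff n := by
    rw [Finset.sum_ite_eq' (Finset.range (n + 1)) n (fun _ => R.coeff n)]
    simp
  exact hsum.trans ((Finset.sum_congr rfl hcoeff).trans hfin)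

/-- Auxiliary form of the triangularity statement, by induction on a degree bound. -/
theorem exists_map_iota_of_aeval_aux (N : ℕ) [NeZero N] (n : ℕ) :
    ∀ (R : Polynomial ℂ) (L : LaurentSeries Kbar), R.degree < (n : WithBot ℕ) →
      Polynomial.aeval (qExpand ℂ N (jqModC ℂ)) R = coeffMap iota L →
      ∃ r : Polynomial Kbar, R = r.map iota := by
  induction n with
  | zero =>
    intro R L hR _
    refine ⟨0, ?_⟩
    rw [Polynomial.map_zero]
    rw [Polynomial.degree_lt_iff_coeff_zero] at hR
    ext m
    simpa using hR m (Nat.zero_le m)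
  | succ n ih =>
    intro R L hR h
    have hRn : R.natDegree ≤ n := by
      by_cases h0 : R = 0
      · simp [h0]
      · have := (Polynomial.natDegree_lt_iff_degree_lt h0).mpr hR
        omega
    set a : Kbar := L.coeff ((N : ℤ) * (-(n : ℤ))) with ha
    have hcoeff : R.coeff n = iota a := by
      rw [← coeff_aeval_qExpand_jqModC N R n hRn, h, coeffMap_coeff]
    set R' : Polynomial ℂ := R - Polynomial.C (iota a) * Polynomial.X ^ n with hR'
    have hdeg : R'.degree < (n : WithBot ℕ) := by
      rw [Polynomial.degree_lt_iff_coeff_zero]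
      intro m hm
      rw [hR', Polynomial.coeff_sub, Polynomial.coeff_C_mul, Polynomial.coeff_X_pow]
      rcases hm.eq_or_lt with rfl | hlt
      · simp [hcoeff]
      · have : R.coeff m = 0 := Polynomial.coeff_eq_zero_of_natDegree_lt (by omega)
        simp [this, hlt.ne']
    have h' : Polynomial.aeval (qExpand ℂ N (jqModC ℂ)) R'
        = coeffMap iota (L - HahnSeries.C a * qExpand Kbar N (jqModC Kbar) ^ n) := by
      rw [hR', map_sub, map_mul, map_pow, Polynomial.aeval_C, Polynomial.aeval_X, h,
        map_sub, map_mul, map_pow, coeffMap_iota_qExpand_jqModC, coeffMap_iota_C,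
        algebraMap_eq_C]
    obtain ⟨r', hr'⟩ := ih R' _ hdeg h'
    refine ⟨r' + Polynomial.C a * Polynomial.X ^ n, ?_⟩
    rw [Polynomial.map_add, Polynomial.map_mul, Polynomial.map_pow, Polynomial.map_C,
      Polynomial.map_X, ← hr', hR']
    ring

/-- **Rationality by triangularity.** -/
theorem exists_map_iota_of_aeval (N : ℕ) [NeZero N] (R : Polynomial ℂ) (L : LaurentSeries Kbar)
    (h : Polynomial.aeval (qExpand ℂ N (jqModC ℂ)) R = coeffMap iota L) :
    ∃ r : Polynomial Kbar, R = r.map iota :=
  exists_map_iota_of_aeval_aux N (R.natDegree + 1) R L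
    (by
      by_cases h0 : R = 0
      · simp [h0]
      · exact (Polynomial.natDegree_lt_iff_degree_lt h0).mp (Nat.lt_succ_self _)) h

/-! ### Elementary symmetric functions and relations closed under the semiring operations -/

/-- A relation between two commutative semirings which is closed under `0, 1, +, *` is respected
by the elementary symmetric functions. -/
theorem esymm_rel {A B : Type*} [CommSemiring A] [CommSemiring B] (Rel : A → B → Prop)
    (h0 : Rel 0 0) (h1 : Rel 1 1)
    (hadd : ∀ a a' b b', Rel a b → Rel a' b' → Rel (a + a') (b + b'))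
    (hmul : ∀ a a' b b', Rel a b → Rel a' b' → Rel (a * a') (b * b'))
    {X : Type*} [Fintype X] (f : X → A) (g : X → B) (hfg : ∀ x, Rel (f x) (g x)) (k : ℕ) :
    Rel ((Finset.univ.val.map f).esymm k) ((Finset.univ.val.map g).esymm k) := by
  classical
  rw [Finset.esymm_map_val, Finset.esymm_map_val]
  have hprod : ∀ t : Finset X, Rel (∏ i ∈ t, f i) (∏ i ∈ t, g i) := by
    intro t
    induction t using Finset.induction_on with
    | empty => simpa using h1
    | insert a s ha ih =>
      rw [Finset.prod_insert ha, Finset.prod_insert ha]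
      exact hmul _ _ _ _ (hfg a) ih
  generalize Finset.powersetCard k (Finset.univ : Finset X) = S
  induction S using Finset.induction_on with
  | empty => simpa using h0
  | insert a s ha ih =>
    rw [Finset.sum_insert ha, Finset.sum_insert ha]
    exact hadd _ _ _ _ (hprod a) ih

/-- Unary version of `esymm_rel`. -/
theorem esymm_induction {A : Type*} [CommSemiring A] (motive : A → Prop)
    (h0 : motive 0) (h1 : motive 1)
    (hadd : ∀ a a', motive a → motive a' → motive (a + a'))
    (hmul : ∀ a a', motive a → motive a' → motive (a * a'))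
    {X : Type*} [Fintype X] (f : X → A) (hf : ∀ x, motive (f x)) (k : ℕ) :
    motive ((Finset.univ.val.map f).esymm k) :=
  esymm_rel (fun a _ => motive a) h0 h1 (fun a a' _ _ h h' => hadd a a' h h')
    (fun a a' _ _ h h' => hmul a a' h h') f f hf k

/-- Ring homomorphisms commute with the elementary symmetric functions. -/
theorem map_esymm {A B : Type*} [CommSemiring A] [CommSemiring B] (φ : A →+* B)
    {X : Type*} [Fintype X] (f : X → A) (k : ℕ) :
    φ ((Finset.univ.val.map f).esymm k) = (Finset.univ.val.map fun x => φ (f x)).esymm k :=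
  esymm_rel (fun a b => φ a = b) (map_zero φ) (map_one φ)
    (by rintro a a' _ _ rfl rfl; exact map_add φ a a')
    (by rintro a a' _ _ rfl rfl; exact map_mul φ a a') f _ (fun _ => rfl) k

/-- Elementary symmetric functions in a ring of functions are computed pointwise. -/
theorem esymm_apply {X : Type*} [Fintype X] (F : X → ℍ → ℂ) (k : ℕ) (τ : ℍ) :
    (Finset.univ.val.map F).esymm k τ = (Finset.univ.val.map fun y => F y τ).esymm k :=
  map_esymm (Pi.evalRingHom (fun _ : ℍ => ℂ) τ) F k

/-! ### Polynomials in `J` -/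

/-- `Θ` of a polynomial in `j = j_1` is that polynomial in `J`. -/
theorem Theta_aeval_X_oneDiv (N : ℕ) [NeZero N] (r : Polynomial Kbar) (τ : ℍ) :
    Theta N (Polynomial.aeval (MvPolynomial.X (oneDiv N)) r) τ
      = (r.map iota).eval (Jfun τ) := by
  have hX : Theta N (MvPolynomial.X (oneDiv N)) τ = Jfun τ := by
    rw [Theta_apply, MvPolynomial.eval₂_X]
    show Jd 1 τ = Jfun τ
    rw [H49.Jd_one]
  induction r using Polynomial.induction_on with
  | C a =>
    rw [Polynomial.aeval_C, Polynomial.map_C, Polynomial.eval_C, MvPolynomial.algebraMap_eq,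
      Theta_apply, MvPolynomial.eval₂_C]
  | add p q hp hq =>
    rw [map_add, map_add, Pi.add_apply, hp, hq, Polynomial.map_add, Polynomial.eval_add]
  | monomial n a ih =>
    rw [pow_succ, ← mul_assoc, map_mul, map_mul, Pi.mul_apply, ih, Polynomial.aeval_X, hX]
    conv_rhs => rw [Polynomial.map_mul, Polynomial.eval_mul, Polynomial.map_X, Polynomial.eval_X]

/-- A relation between functions on `ℍ` and Laurent series which is closed under the ring
operations is respected by polynomial evaluation. -/
theorem rel_eval (Rel : (ℍ → ℂ) → LaurentSeries ℂ → Prop)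
    (hconst : ∀ c : ℂ, Rel (fun _ => c) (HahnSeries.C c))
    (hadd : ∀ f g L M, Rel f L → Rel g M → Rel (f + g) (L + M))
    (hmul : ∀ f g L M, Rel f L → Rel g M → Rel (f * g) (L * M))
    (f : ℍ → ℂ) (L : LaurentSeries ℂ) (hf : Rel f L) (R : Polynomial ℂ) :
    Rel (fun τ => R.eval (f τ)) (Polynomial.aeval L R) := by
  induction R using Polynomial.induction_on with
  | C a =>
    simp only [Polynomial.eval_C, Polynomial.aeval_C]
    rw [algebraMap_eq_C]
    exact hconst a
  | add p q hp hq =>
    have : (fun τ => (p + q).eval (f τ)) = (fun τ => p.eval (f τ)) + fun τ => q.eval (f τ) := by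
      funext τ
      simp
    rw [this, map_add]
    exact hadd _ _ _ _ hp hq
  | monomial n a ih =>
    have : (fun τ => (Polynomial.C a * Polynomial.X ^ (n + 1)).eval (f τ))
        = (fun τ => (Polynomial.C a * Polynomial.X ^ n).eval (f τ)) * f := by
      funext τ
      simp [pow_succ, mul_assoc]
    rw [this, pow_succ, ← mul_assoc, map_mul, Polynomial.aeval_X]
    exact hmul _ _ _ _ ih hf

/-! ### The symmetric functions of the translates -/

/-- The elementary symmetric functions of the translates are holomorphic. -/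
theorem mdiff_esymm_transl (N : ℕ) [Fintype (XX N)] (P : MvPolynomial (N.divisors) Kbar)
    (k : ℕ) : MDiff ((Finset.univ.val.map fun y : XX N => transl N y P).esymm k) :=
  esymm_induction (fun f : ℍ → ℂ => MDiff f) mdifferentiable_const mdifferentiable_const
    (fun _ _ h h' => h.add h') (fun _ _ h h' => h.mul h') _
    (fun y => H49.mdifferentiable_transl N y P) k

/-- **Core of AN-POLYJ.**  Let `Rel f L` be a notion of "`f` has the expansion `L` at `i∞`"
which is closed under the ring operations, determines `L` uniquely, implies moderate growth,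
and for which `J` has the expansion `j(q^N)` and all translates of `P` have `ℚ̄`-rational
expansions.  Then every elementary symmetric function of the translates of `P` is a polynomial
in `J` with coefficients in `ℚ̄`. -/
theorem exists_sym_poly_core (N : ℕ) [NeZero N] [Fintype (XX N)]
    (Rel : (ℍ → ℂ) → LaurentSeries ℂ → Prop)
    (hconst : ∀ c : ℂ, Rel (fun _ => c) (HahnSeries.C c))
    (hadd : ∀ f g L M, Rel f L → Rel g M → Rel (f + g) (L + M))
    (hmul : ∀ f g L M, Rel f L → Rel g M → Rel (f * g) (L * M))
    (huniq : ∀ f L M, Rel f L → Rel f M → L = M)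
    (hbdd : ∀ f L, Rel f L →
      ∃ M : ℕ, IsBoundedAtImInfty (fun τ => ModularForm.discriminant τ ^ M * f τ))
    (hJ : Rel Jfun (qExpand ℂ N (jqModC ℂ)))
    (P : MvPolynomial (N.divisors) Kbar)
    (htr : ∀ x : XX N, ∃ Lx : LaurentSeries Kbar, Rel (transl N x P) (coeffMap iota Lx))
    (k : ℕ) :
    ∃ r : Polynomial Kbar, ∀ τ : ℍ,
      Theta N (Polynomial.aeval (MvPolynomial.X (oneDiv N)) r) τ
        = (Finset.univ.val.map fun y : XX N => transl N y P τ).esymm k := by
  classical
  choose Lx hLx using htr
  set E : ℍ → ℂ := (Finset.univ.val.map fun y : XX N => transl N y P).esymm k with hE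
  have hEτ : ∀ τ, E τ = (Finset.univ.val.map fun y : XX N => transl N y P τ).esymm k :=
    fun τ => esymm_apply _ k τ
  have h0 : Rel 0 0 := by
    have := hconst 0
    rwa [map_zero] at this
  have h1 : Rel 1 1 := by
    have := hconst 1
    rwa [map_one] at this
  have hRelE : Rel E (coeffMap iota ((Finset.univ.val.map Lx).esymm k)) := by
    rw [map_esymm (coeffMap iota) Lx k]
    exact esymm_rel Rel h0 h1 hadd hmul _ _ hLx k
  obtain ⟨M, hM⟩ := hbdd _ _ hRelE
  have hinv : ∀ (γ : SL(2, ℤ)) (τ : ℍ), E (γ • τ) = E τ := fun γ τ => by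
    rw [hEτ, hEτ]
    exact H49.esymm_transl_smul N P k γ τ
  obtain ⟨R, -, hR⟩ := H6.exists_poly_of_invariant M E (mdiff_esymm_transl N P k) hinv hM
  have hEfun : (fun τ => R.eval (Jfun τ)) = E := (funext hR).symm
  have hRelR : Rel E (Polynomial.aeval (qExpand ℂ N (jqModC ℂ)) R) := by
    rw [← hEfun]
    exact rel_eval Rel hconst hadd hmul Jfun _ hJ R
  obtain ⟨r, hr⟩ := exists_map_iota_of_aeval N R _ (huniq _ _ _ hRelR hRelE)
  refine ⟨r, fun τ => ?_⟩
  rw [Theta_aeval_X_oneDiv, ← hr, ← hEτ, hR]
  rfl

end Fermat.Agent.S24.H68
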